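import Mathlib
import Fermat.Prelude.Def_EllipticCurve_FrobeniusTrace

set_option autoImplicit false

open scoped Pointwise

namespace Fermat.Agent.Common

noncomputable section

local notation "Qb" => AlgebraicClosure ℚ

theorem isAlgebraic_Qb : Algebra.IsAlgebraic ℚ Qb := AlgebraicClosure.isAlgebraic ℚ

theorem isIntegral_Qb : Algebra.IsIntegral ℚ Qb := by
  have := isAlgebraic_Qb
  infer_instance

theorem isAlgClosure_Qb : IsAlgClosure ℚ Qb :=
  ⟨inferInstance, isAlgebraic_Qb⟩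

theorem isGalois_Qb : IsGalois ℚ Qb := by
  have := isAlgClosure_Qb
  exact IsAlgClosure.isGalois ℚ Qb

theorem valuation_le_one_of_isIntegral (A : ValuationSubring Qb) {x : Qb} (hx : IsIntegral ℤ x) :
    A.valuation x ≤ 1 := by
  rw [A.valuation_le_one_iff]
  have h2 : IsIntegral A x := hx.tower_top
  obtain ⟨y, hy⟩ := IsIntegrallyClosed.isIntegral_iff.mp h2
  rw [← hy]
  exact y.2

theorem mul_lt_one_aux {Γ : Type*} [LinearOrderedCommGroupWithZero Γ] {a b : Γ} (ha : a ≤ 1)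
    (hb : b < 1) : a * b < 1 := by
  calc a * b ≤ 1 * b := by gcongr
    _ = b := one_mul b
    _ < 1 := hb

section Pullback

variable (A : ValuationSubring Qb) {R : Type*} [CommRing R] (φ : R →+* Qb)
  (hφ : ∀ r, IsIntegral ℤ (φ r))

/-- The ideal of elements whose image has valuation `< 1`. -/
def pullbackIdeal : Ideal R where
  carrier := {r | A.valuation (φ r) < 1}
  add_mem' := by
    intro a b ha hb
    show A.valuation (φ (a + b)) < 1
    rw [map_add]
    exact lt_of_le_of_lt (A.valuation.map_add _ _) (max_lt ha hb)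
  zero_mem' := by
    show A.valuation (φ 0) < 1
    simp
  smul_mem' := by
    intro c x hx
    show A.valuation (φ (c * x)) < 1
    rw [map_mul, map_mul]
    exact mul_lt_one_aux (valuation_le_one_of_isIntegral A (hφ c)) hx

theorem mem_pullbackIdeal {r : R} : r ∈ pullbackIdeal A φ hφ ↔ A.valuation (φ r) < 1 := Iff.rfl

theorem pullbackIdeal_isPrime : (pullbackIdeal A φ hφ).IsPrime := by
  refine ⟨?_, ?_⟩
  · intro h
    have h1 : (1 : R) ∈ pullbackIdeal A φ hφ := by rw [h]; trivial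
    rw [mem_pullbackIdeal, map_one, map_one] at h1
    exact lt_irrefl _ h1
  · intro x y hxy
    rw [mem_pullbackIdeal, map_mul, map_mul] at hxy
    by_contra hcon
    push Not at hcon
    obtain ⟨hx, hy⟩ := hcon
    rw [mem_pullbackIdeal, not_lt] at hx hy
    have hx1 : A.valuation (φ x) = 1 := le_antisymm (valuation_le_one_of_isIntegral A (hφ x)) hx
    have hy1 : A.valuation (φ y) = 1 := le_antisymm (valuation_le_one_of_isIntegral A (hφ y)) hy
    rw [hx1, hy1, one_mul] at hxy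
    exact lt_irrefl _ hxy

end Pullback

/-- The ring of all algebraic integers. -/
abbrev Zb : Subalgebra ℤ Qb := integralClosure ℤ Qb

theorem Zb_isIntegral (b : Zb) : IsIntegral ℤ ((Zb.val : Zb →+* Qb) b) := b.2

/-- The prime of the ring of algebraic integers cut out by a valuation subring. -/
def primeOf (A : ValuationSubring Qb) : Ideal Zb :=
  pullbackIdeal A (Zb.val : Zb →+* Qb) Zb_isIntegral

theorem mem_primeOf (A : ValuationSubring Qb) {b : Zb} :
    b ∈ primeOf A ↔ A.valuation (b : Qb) < 1 := Iff.rfl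

theorem primeOf_isPrime (A : ValuationSubring Qb) : (primeOf A).IsPrime :=
  pullbackIdeal_isPrime A _ _

theorem natCast_mem_primeOf (A : ValuationSubring Qb) (ℓ : ℕ) (hA : A.LiesOverPrime ℓ) :
    (ℓ : Zb) ∈ primeOf A := by
  rw [mem_primeOf]
  have h : (ℓ : Qb) ∈ A.nonunits := hA
  rw [A.mem_nonunits_iff] at h
  simpa using h

theorem primeOf_liesOver (A : ValuationSubring Qb) (ℓ : ℕ) (hℓ : ℓ.Prime)
    (hA : A.LiesOverPrime ℓ) : (primeOf A).LiesOver (Ideal.span {(ℓ : ℤ)}) := by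
  have hmax : (Ideal.span {(ℓ : ℤ)}).IsMaximal :=
    PrincipalIdealRing.isMaximal_of_irreducible (Nat.prime_iff_prime_int.mp hℓ).irreducible
  have hprime := primeOf_isPrime A
  have hne : (primeOf A).under ℤ ≠ ⊤ := (Ideal.IsPrime.under ℤ (primeOf A)).ne_top
  refine ⟨hmax.eq_of_le hne ?_⟩
  rw [Ideal.span_le, Set.singleton_subset_iff]
  show algebraMap ℤ Zb (ℓ : ℤ) ∈ primeOf A
  simpa using natCast_mem_primeOf A ℓ hA

local notation "GQ" => (AlgebraicClosure ℚ ≃ₐ[ℚ] AlgebraicClosure ℚ)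

theorem Zb_isInvariant : Algebra.IsInvariant ℤ Zb GQ := by
  refine ⟨fun b hb => ?_⟩
  have := isGalois_Qb
  have hfix : ∀ f : GQ, f (b : Qb) = (b : Qb) := fun f => congrArg Subtype.val (hb f)
  obtain ⟨q, hq⟩ := (IntermediateField.mem_bot).mp ((InfiniteGalois.mem_bot_iff_fixed (b : Qb)).mpr hfix)
  have hqint : IsIntegral ℤ q := by
    have h1 : IsIntegral ℤ (algebraMap ℚ Qb q) := hq ▸ b.2
    exact (isIntegral_algebraMap_iff (algebraMap ℚ Qb).injective).mp h1
  obtain ⟨n, hn⟩ := IsIntegrallyClosed.isIntegral_iff.mp hqint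
  refine ⟨n, Subtype.ext ?_⟩
  show algebraMap ℤ Qb n = (b : Qb)
  rw [← hq, ← hn]
  simp

theorem stabilizer_Zb_isOpen (b : Zb) : IsOpen (MulAction.stabilizer GQ b : Set GQ) := by
  have := isIntegral_Qb
  have h := stabilizer_isOpen_of_isIntegral (K := ℚ) (L := Qb) (b : Qb)
  convert h using 1
  ext g
  simp only [SetLike.mem_coe, MulAction.mem_stabilizer_iff]
  exact Subtype.ext_iff

/-- There is an element of the stabilizer of the prime acting as the `ℓ`-power map. -/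
theorem exists_frob_on_Zb (A : ValuationSubring Qb) (ℓ : ℕ) (hℓ : ℓ.Prime)
    (hA : A.LiesOverPrime ℓ) :
    ∃ τ : GQ, ∀ b : Zb, (τ • b) - b ^ ℓ ∈ primeOf A := by
  have hGal := isGalois_Qb
  have hInt := isIntegral_Qb
  have hprime := primeOf_isPrime A
  have hover := primeOf_liesOver A ℓ hℓ hA
  have hinv := Zb_isInvariant
  let _ : TopologicalSpace Zb := ⊥
  have : DiscreteTopology Zb := ⟨rfl⟩
  have : ContinuousSMul GQ Zb := continuousSMul_iff_stabilizer_isOpen.mpr stabilizer_Zb_isOpen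
  have : Fact ℓ.Prime := ⟨hℓ⟩
  have hℓmem : (ℓ : Zb) ∈ primeOf A := natCast_mem_primeOf A ℓ hA
  have : CharP (Zb ⧸ primeOf A) ℓ := by
    rw [CharP.charP_iff_prime_eq_zero hℓ]
    have : ((ℓ : Zb) : Zb ⧸ primeOf A) = 0 := Ideal.Quotient.eq_zero_iff_mem.mpr hℓmem
    simpa using this
  have hinj : Function.Injective (frobenius (Zb ⧸ primeOf A) ℓ) := frobenius_inj _ ℓ
  have hsurj : Function.Surjective (frobenius (Zb ⧸ primeOf A) ℓ) := by
    intro y
    obtain ⟨b, rfl⟩ := Ideal.Quotient.mk_surjective y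
    obtain ⟨c, hc⟩ := IsAlgClosed.exists_pow_nat_eq (b : Qb) hℓ.pos
    have hcint : IsIntegral ℤ c := IsIntegral.of_pow hℓ.pos (hc ▸ b.2)
    refine ⟨Ideal.Quotient.mk _ (⟨c, hcint⟩ : Zb), ?_⟩
    rw [frobenius_def, ← map_pow]
    congr 1
    exact Subtype.ext hc
  let f : (Zb ⧸ primeOf A) →ₐ[ℤ ⧸ Ideal.span {(ℓ : ℤ)}] (Zb ⧸ primeOf A) :=
    { frobenius (Zb ⧸ primeOf A) ℓ with
      commutes' := by
        intro r
        obtain ⟨n, rfl⟩ := Ideal.Quotient.mk_surjective r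
        show (algebraMap (ℤ ⧸ Ideal.span {(ℓ : ℤ)}) (Zb ⧸ primeOf A) (Ideal.Quotient.mk _ n)) ^ ℓ
          = algebraMap (ℤ ⧸ Ideal.span {(ℓ : ℤ)}) (Zb ⧸ primeOf A) (Ideal.Quotient.mk _ n)
        rw [← map_pow, ← map_pow]
        congr 1
        rw [Ideal.Quotient.eq, Ideal.mem_span_singleton]
        rw [← ZMod.intCast_zmod_eq_zero_iff_dvd]
        push_cast
        rw [ZMod.pow_card, sub_self] }
  let σ₀ : (Zb ⧸ primeOf A) ≃ₐ[ℤ ⧸ Ideal.span {(ℓ : ℤ)}] (Zb ⧸ primeOf A) :=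
    AlgEquiv.ofBijective f ⟨hinj, hsurj⟩
  obtain ⟨τ, hτ⟩ := Ideal.Quotient.stabilizerHom_surjective_of_profinite (G := GQ)
    (Ideal.span {(ℓ : ℤ)}) (primeOf A) σ₀
  refine ⟨τ.1, fun b => ?_⟩
  have h1 := DFunLike.congr_fun hτ (Ideal.Quotient.mk _ b)
  rw [Ideal.Quotient.stabilizerHom_apply] at h1
  rw [← Ideal.Quotient.eq, map_pow]
  exact h1

open NumberField in
/-- Every element of a valuation subring over `ℓ` is a quotient of algebraic integers with
denominator of valuation one. -/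
theorem exists_mul_eq (A : ValuationSubring Qb) (ℓ : ℕ) (hℓ : ℓ.Prime)
    (hA : A.LiesOverPrime ℓ) {x : Qb} (hx : x ∈ A) :
    ∃ b s : Zb, A.valuation (s : Qb) = 1 ∧ x * (s : Qb) = (b : Qb) := by
  have hInt := isIntegral_Qb
  let K : IntermediateField ℚ Qb := IntermediateField.adjoin ℚ {x}
  have : FiniteDimensional ℚ K :=
    IntermediateField.adjoin.finiteDimensional (Algebra.IsIntegral.isIntegral x)
  have : NumberField K := ⟨⟩
  let φ : 𝓞 K →+* Qb := (algebraMap K Qb).comp (algebraMap (𝓞 K) K)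
  have hφ : ∀ r, IsIntegral ℤ (φ r) := fun r =>
    (RingOfIntegers.isIntegral_coe r).map (IsScalarTower.toAlgHom ℤ K Qb)
  have hle : ∀ r, A.valuation (φ r) ≤ 1 := fun r => valuation_le_one_of_isIntegral A (hφ r)
  let q : Ideal (𝓞 K) := pullbackIdeal A φ hφ
  have hqprime : q.IsPrime := pullbackIdeal_isPrime A φ hφ
  have hqne : q ≠ ⊥ := by
    intro h
    have h1 : (ℓ : 𝓞 K) ∈ q := by
      rw [mem_pullbackIdeal]
      have h : (ℓ : Qb) ∈ A.nonunits := hA
      rw [A.mem_nonunits_iff] at h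
      simpa using h
    rw [h, Ideal.mem_bot] at h1
    exact hℓ.ne_zero (by exact_mod_cast h1)
  let v : IsDedekindDomain.HeightOneSpectrum (𝓞 K) := ⟨q, hqprime, hqne⟩
  let xK : K := ⟨x, IntermediateField.mem_adjoin_simple_self ℚ x⟩
  obtain ⟨n, d, h⟩ := v.exists_primeCompl_mul_eq_or_mul_eq (K := K) xK
  have hd : A.valuation (φ d) = 1 := by
    have h1 : (d : 𝓞 K) ∉ q := d.2
    rw [mem_pullbackIdeal, not_lt] at h1
    exact le_antisymm (hle _) h1
  rcases h with h | h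
  · refine ⟨⟨φ n, hφ n⟩, ⟨φ d, hφ d⟩, hd, ?_⟩
    have := congrArg (algebraMap K Qb) h
    rwa [map_mul] at this
  · have h2 : x * φ n = φ d := by
      have := congrArg (algebraMap K Qb) h
      rwa [map_mul] at this
    refine ⟨⟨φ d, hφ d⟩, ⟨φ n, hφ n⟩, ?_, h2⟩
    have h3 := congrArg A.valuation h2
    rw [map_mul, hd] at h3
    refine le_antisymm (hle _) ?_
    by_contra hcon
    rw [not_le] at hcon
    have h4 := mul_lt_one_aux ((A.valuation_le_one_iff x).mpr hx) hcon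
    rw [h3] at h4
    exact lt_irrefl _ h4

/-- Existence of Frobenius elements in the absolute Galois group of `ℚ`. -/
theorem exists_isFrobeniusAt (A : ValuationSubring Qb) (ℓ : ℕ) (hℓ : ℓ.Prime)
    (hA : A.LiesOverPrime ℓ) : ∃ σ : GQ, A.IsFrobeniusAt σ ℓ := by
  obtain ⟨τ, hτ⟩ := exists_frob_on_Zb A ℓ hℓ hA
  have hτ' : ∀ b : Zb, A.valuation (τ (b : Qb) - (b : Qb) ^ ℓ) < 1 := fun b => by
    have h := hτ b
    rw [mem_primeOf] at h
    exact h
  have hone : ∀ b : Zb, A.valuation (b : Qb) = 1 → A.valuation (τ (b : Qb)) = 1 := by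
    intro b hb
    have hle : A.valuation (τ (b : Qb)) ≤ 1 :=
      valuation_le_one_of_isIntegral A (b.2.map (τ : Qb →ₐ[ℚ] Qb).toRingHom.toIntAlgHom)
    refine le_antisymm hle ?_
    by_contra hcon
    rw [not_le] at hcon
    have h1 : A.valuation ((b : Qb) ^ ℓ) < 1 := by
      have : (b : Qb) ^ ℓ = τ (b : Qb) - (τ (b : Qb) - (b : Qb) ^ ℓ) := by ring
      rw [this]
      exact lt_of_le_of_lt (A.valuation.map_sub _ _) (max_lt hcon (hτ' b))
    rw [map_pow, hb, one_pow] at h1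
    exact lt_irrefl _ h1
  have key : ∀ x : Qb, x ∈ A → A.valuation (τ x - x ^ ℓ) < 1 := by
    intro x hx
    obtain ⟨b, s, hs, hxs⟩ := exists_mul_eq A ℓ hℓ hA hx
    have hxv : A.valuation x ≤ 1 := (A.valuation_le_one_iff x).mpr hx
    have h1 : τ (s : Qb) * (τ x - x ^ ℓ)
        = (τ (b : Qb) - (b : Qb) ^ ℓ) - x ^ ℓ * (τ (s : Qb) - (s : Qb) ^ ℓ) := by
      rw [← hxs, map_mul]
      ring
    have h2 : A.valuation (τ (s : Qb) * (τ x - x ^ ℓ)) < 1 := by
      rw [h1]
      refine lt_of_le_of_lt (A.valuation.map_sub _ _) (max_lt (hτ' b) ?_)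
      rw [map_mul]
      refine mul_lt_one_aux ?_ (hτ' s)
      rw [map_pow]
      exact pow_le_one' hxv ℓ
    rwa [map_mul, hone s hs, one_mul] at h2
  have hmem : ∀ x : Qb, x ∈ A ↔ τ x ∈ A := by
    intro x
    constructor
    · intro hx
      have h1 := key x hx
      have h2 : τ x = (τ x - x ^ ℓ) + x ^ ℓ := by ring
      rw [← A.valuation_le_one_iff, h2]
      refine le_trans (A.valuation.map_add _ _) (max_le h1.le ?_)
      rw [map_pow]
      exact pow_le_one' ((A.valuation_le_one_iff x).mpr hx) ℓ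
    · intro hx
      by_contra hcon
      have hx0 : x ≠ 0 := fun h => hcon (h ▸ A.zero_mem)
      have hinv : x⁻¹ ∈ A := (A.mem_or_inv_mem x).resolve_left hcon
      have hvx : 1 < A.valuation x := by
        rw [← not_le, A.valuation_le_one_iff]
        exact hcon
      have hvinv : A.valuation x⁻¹ < 1 := by
        rw [map_inv₀]
        exact inv_lt_one_of_one_lt₀ hvx
      have h1 := key x⁻¹ hinv
      have h2 : A.valuation (τ x⁻¹) < 1 := by
        have : τ x⁻¹ = (τ x⁻¹ - x⁻¹ ^ ℓ) + x⁻¹ ^ ℓ := by ring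
        rw [this]
        refine lt_of_le_of_lt (A.valuation.map_add _ _) (max_lt h1 ?_)
        rw [map_pow]
        exact pow_lt_one' hvinv hℓ.ne_zero
      rw [map_inv₀, map_inv₀] at h2
      have h3 : A.valuation (τ x) ≤ 1 := (A.valuation_le_one_iff _).mpr hx
      have h4 : τ x ≠ 0 := fun h => hx0 (by simpa using h)
      have h5 : A.valuation (τ x) ≠ 0 := (Valuation.ne_zero_iff _).mpr h4
      have h6 : 1 ≤ (A.valuation (τ x))⁻¹ := (one_le_inv₀ (zero_lt_iff.mpr h5)).mpr h3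
      exact not_lt.mpr h6 h2
  have hstab : τ ∈ A.decompositionSubgroup ℚ := by
    rw [MulAction.mem_stabilizer_iff]
    ext x
    rw [ValuationSubring.mem_pointwise_smul_iff_inv_smul_mem]
    have h := hmem (τ⁻¹ • x)
    rw [h]
    have : τ (τ⁻¹ • x) = x := by
      show τ (τ⁻¹ x) = x
      exact (AlgEquiv.apply_symm_apply τ x)
    rw [this]
  refine ⟨τ, hstab, ?_⟩
  intro y
  obtain ⟨a, rfl⟩ := IsLocalRing.residue_surjective y
  rw [← IsLocalRing.ResidueField.residue_smul, ← map_pow]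
  rw [← sub_eq_zero, ← map_sub, IsLocalRing.residue_eq_zero_iff, A.valuation_lt_one_iff]
  exact key a a.2

/-- Every prime has a valuation subring of `AlgebraicClosure ℚ` above it. -/
theorem exists_liesOverPrime (ℓ : ℕ) (hℓ : ℓ.Prime) :
    ∃ A : ValuationSubring Qb, A.LiesOverPrime ℓ := by
  let R : Subring Qb := (algebraMap ℤ Qb).range
  let l : R := ⟨(ℓ : Qb), ⟨(ℓ : ℤ), by simp⟩⟩
  have hI : Ideal.span {l} ≠ ⊤ := by
    intro h
    have h1 : (1 : R) ∈ Ideal.span {l} := by rw [h]; trivial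
    rw [Ideal.mem_span_singleton'] at h1
    obtain ⟨⟨r, n, hn⟩, hr⟩ := h1
    have h2 : r * (ℓ : Qb) = 1 := congrArg Subtype.val hr
    rw [← hn] at h2
    have h3 : ((n * (ℓ : ℤ) : ℤ) : Qb) = ((1 : ℤ) : Qb) := by
      push_cast
      simpa using h2
    have h4 : n * (ℓ : ℤ) = 1 := Int.cast_injective h3
    have h5 : (ℓ : ℤ) ∣ 1 := ⟨n, by rw [← h4]; ring⟩
    have h6 : ℓ ∣ 1 := by exact_mod_cast h5
    exact hℓ.one_lt.ne' (Nat.dvd_one.mp h6)
  obtain ⟨B, -, hsub⟩ := Ideal.image_subset_nonunits_valuationSubring (Ideal.span {l}) hI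
  exact ⟨B, hsub ⟨l, Ideal.subset_span rfl, rfl⟩⟩

/-- Frobenius elements exist at every prime. -/
theorem exists_frobenius (ℓ : ℕ) (hℓ : ℓ.Prime) :
    ∃ (A : ValuationSubring Qb) (σ : GQ), A.LiesOverPrime ℓ ∧ A.IsFrobeniusAt σ ℓ := by
  obtain ⟨A, hA⟩ := exists_liesOverPrime ℓ hℓ
  obtain ⟨σ, hσ⟩ := exists_isFrobeniusAt A ℓ hℓ hA
  exact ⟨A, σ, hA, hσ⟩

end

end Fermat.Agent.Common
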